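/-
S25 / ATLAS / DIV leaf BCfwd (helper7651): the base-ring-linear structure of base change along
`𝒞.chartHom φ`.

For `φ : S →ₐ[k] R` the charts of `𝒞.chart R` are pushouts `R ⊗[S] (S ⊗[k] A_i)`, hence the
charts `B'_i ⊗[B_i] N_i` of a base change are `R ⊗[S] N_i`: every `φ`-semilinear additive map
`N_i → P` into an `R`-module extends uniquely to an `R`-linear map on the base change.
-/
import Fermat.Agent.S25.ATLAS.Defs
import Fermat.Agent.S25.Lib.BaseChangeData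

set_option autoImplicit false
set_option linter.style.haveILetI false

universe u

namespace Fermat.Agent.S25.ATLAS.DIV.BCfwd

open scoped TensorProduct

open Fermat.Agent.S25 GluedModule

section single

variable {k : Type u} [Field k] (A : Type u) [CommRing A] [Algebra k A]
  {S R : Type u} [CommRing S] [Algebra k S] [CommRing R] [Algebra k R] (φ : S →ₐ[k] R)
  (N : Type u) [AddCommGroup N] [Module S N] [Module (S ⊗[k] A) N]
  [IsScalarTower S (S ⊗[k] A) N]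

/-- Single chart: a `φ`-semilinear additive map `N → P` into an `R`-module extends to an
`R`-linear map on `(R ⊗[k] A) ⊗[S ⊗[k] A] N`. -/
theorem exists_rlift_single (P : Type u) [AddCommGroup P] [Module R P] (h : N →+ P)
    (hh : ∀ (c : S) (n : N), h (c • n) = φ c • h n) :
    letI := (Algebra.TensorProduct.map φ (AlgHom.id k A)).toRingHom.toAlgebra
    ∃ h' : ((R ⊗[k] A) ⊗[S ⊗[k] A] N) →ₗ[R] P,
      ∀ n : N, h' ((1 : R ⊗[k] A) ⊗ₜ[S ⊗[k] A] n) = h n := by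
  letI algBB : Algebra (S ⊗[k] A) (R ⊗[k] A) :=
    (Algebra.TensorProduct.map φ (AlgHom.id k A)).toRingHom.toAlgebra
  letI algSR : Algebra S R := φ.toRingHom.toAlgebra
  haveI : IsScalarTower k S R := IsScalarTower.of_algebraMap_eq (fun c => (φ.commutes c).symm)
  haveI : IsScalarTower S (S ⊗[k] A) (R ⊗[k] A) := IsScalarTower.of_algebraMap_eq (fun c => by
    simp [RingHom.algebraMap_toAlgebra, Algebra.TensorProduct.algebraMap_apply])
  haveI : Algebra.IsPushout S R (S ⊗[k] A) (R ⊗[k] A) :=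
    Algebra.IsPushout.tensorProduct_tensorProduct k A S R (by
      ext a
      simp [RingHom.algebraMap_toAlgebra])
  letI : Module S P := Module.compHom P φ.toRingHom
  haveI : IsScalarTower S R P := ⟨fun c r p => by
    change (φ c * r) • p = φ c • r • p
    rw [mul_smul]⟩
  let hS : N →ₗ[S] P := { toFun := h, map_add' := h.map_add, map_smul' := fun c n => hh c n }
  refine ⟨(hS.liftBaseChange R).comp
    (Algebra.IsPushout.cancelBaseChange S R (S ⊗[k] A) (R ⊗[k] A) N).toLinearMap, fun n => ?_⟩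
  simp [hS]

omit [Module S N] [IsScalarTower S (S ⊗[k] A) N] in
/-- Single chart: `R`-linear maps out of `(R ⊗[k] A) ⊗[S ⊗[k] A] N` are determined by their
values on the elements `1 ⊗ n`. -/
theorem rlin_ext_single (P : Type u) [AddCommGroup P] [Module R P] :
    letI := (Algebra.TensorProduct.map φ (AlgHom.id k A)).toRingHom.toAlgebra
    ∀ (F G : ((R ⊗[k] A) ⊗[S ⊗[k] A] N) →ₗ[R] P),
      (∀ n : N, F ((1 : R ⊗[k] A) ⊗ₜ[S ⊗[k] A] n) = G ((1 : R ⊗[k] A) ⊗ₜ[S ⊗[k] A] n)) →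
        F = G := by
  letI algBB : Algebra (S ⊗[k] A) (R ⊗[k] A) :=
    (Algebra.TensorProduct.map φ (AlgHom.id k A)).toRingHom.toAlgebra
  intro F G hFG
  ext x
  induction x using TensorProduct.induction_on with
  | zero => rw [map_zero, map_zero]
  | add x y hx hy => rw [map_add, map_add, hx, hy]
  | tmul b n =>
    induction b using TensorProduct.induction_on with
    | zero => rw [TensorProduct.zero_tmul, map_zero, map_zero]
    | add x y hx hy => rw [TensorProduct.add_tmul, map_add, map_add, hx, hy]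
    | tmul r a =>
      have key : (r ⊗ₜ[k] a : R ⊗[k] A) ⊗ₜ[S ⊗[k] A] n =
          r • ((1 : R ⊗[k] A) ⊗ₜ[S ⊗[k] A] (((1 : S) ⊗ₜ[k] a : S ⊗[k] A) • n)) := by
        have h1 : (((1 : S) ⊗ₜ[k] a : S ⊗[k] A) • (1 : R ⊗[k] A)) = (1 : R) ⊗ₜ[k] a := by
          rw [Algebra.smul_def, mul_one, RingHom.algebraMap_toAlgebra]
          simp
        rw [← TensorProduct.smul_tmul, TensorProduct.smul_tmul', h1, TensorProduct.smul_tmul',
          smul_eq_mul, mul_one]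
      rw [key, map_smul, map_smul, hFG]

end single

/-! ### Base change data over an arbitrary morphism of two-charts -/

section general

variable {R R' : Type u} [CommRing R] [CommRing R'] {φ : R →+* R'}
  {𝔹 : TwoChart R} {𝔹' : TwoChart R'} {Ψ : TwoChart.Hom φ 𝔹 𝔹'}
  {N : GluedModule 𝔹} {N' : GluedModule 𝔹'} (D : BaseChangeData Ψ N N')

theorem j₁_smulR (c : R) (n : N.N₁) : D.j₁ (c • n) = φ c • D.j₁ n := by
  rw [← algebraMap_smul 𝔹.B₁ c n, D.j₁_smul, Ψ.alg₁, algebraMap_smul]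

theorem j₂_smulR (c : R) (n : N.N₂) : D.j₂ (c • n) = φ c • D.j₂ n := by
  rw [← algebraMap_smul 𝔹.B₂ c n, D.j₂_smul, Ψ.alg₂, algebraMap_smul]

theorem j₁₂_smulR (c : R) (n : N.N₁₂) : D.j₁₂ (c • n) = φ c • D.j₁₂ n := by
  rw [← algebraMap_smul 𝔹.B₁₂ c n, D.j₁₂_smul, Ψ.alg₁₂, algebraMap_smul]

theorem j₁_eq_iso (n : N.N₁) : D.j₁ n = D.iso.e₁ (bcMk₁ Ψ N 1 n) := by
  rw [BaseChangeData.iso_e₁_bcMk₁, one_smul]

theorem j₂_eq_iso (n : N.N₂) : D.j₂ n = D.iso.e₂ (bcMk₂ Ψ N 1 n) := by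
  rw [BaseChangeData.iso_e₂_bcMk₂, one_smul]

theorem j₁₂_eq_iso (n : N.N₁₂) : D.j₁₂ n = D.iso.e₁₂ (bcMk₁₂ Ψ N 1 n) := by
  rw [BaseChangeData.iso_e₁₂_bcMk₁₂, one_smul]

/-- The first chart of a base change is generated by the image of `j₁`. -/
theorem span_range_j₁ : Submodule.span 𝔹'.B₁ (Set.range D.j₁) = ⊤ := by
  rw [eq_top_iff]
  rintro m -
  obtain ⟨x, rfl⟩ := D.iso.e₁.surjective m
  induction x using baseChange_induction₁ with
  | zero => rw [map_zero]; exact Submodule.zero_mem _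
  | mk b n =>
    rw [BaseChangeData.iso_e₁_bcMk₁]
    exact Submodule.smul_mem _ _ (Submodule.subset_span ⟨n, rfl⟩)
  | add x y hx hy => rw [map_add]; exact Submodule.add_mem _ hx hy

/-- The second chart of a base change is generated by the image of `j₂`. -/
theorem span_range_j₂ : Submodule.span 𝔹'.B₂ (Set.range D.j₂) = ⊤ := by
  rw [eq_top_iff]
  rintro m -
  obtain ⟨x, rfl⟩ := D.iso.e₂.surjective m
  induction x using baseChange_induction₂ with
  | zero => rw [map_zero]; exact Submodule.zero_mem _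
  | mk b n =>
    rw [BaseChangeData.iso_e₂_bcMk₂]
    exact Submodule.smul_mem _ _ (Submodule.subset_span ⟨n, rfl⟩)
  | add x y hx hy => rw [map_add]; exact Submodule.add_mem _ hx hy

end general

/-! ### Base change along `𝒞.chartHom φ`: the `R`-linear universal property -/

section glued

variable {k : Type u} [Field k] (𝒞 : CurveData k) {S R : Type u} [CommRing S] [Algebra k S]
  [CommRing R] [Algebra k R] (φ : S →ₐ[k] R) (Q : GluedModule (𝒞.chart S))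

theorem exists_rlift₁_concrete (P : Type u) [AddCommGroup P] [Module R P] (h : Q.N₁ →+ P)
    (hh : ∀ (c : S) (n : Q.N₁), h (c • n) = φ c • h n) :
    ∃ h' : (Q.baseChange (𝒞.chartHom φ)).N₁ →ₗ[R] P,
      ∀ n, h' (bcMk₁ (𝒞.chartHom φ) Q 1 n) = h n := by
  letI : Module (S ⊗[k] 𝒞.A₁) Q.N₁ := Q.mod₁
  haveI : IsScalarTower S (S ⊗[k] 𝒞.A₁) Q.N₁ := Q.tower₁
  exact exists_rlift_single 𝒞.A₁ φ Q.N₁ P h hh

theorem exists_rlift₂_concrete (P : Type u) [AddCommGroup P] [Module R P] (h : Q.N₂ →+ P)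
    (hh : ∀ (c : S) (n : Q.N₂), h (c • n) = φ c • h n) :
    ∃ h' : (Q.baseChange (𝒞.chartHom φ)).N₂ →ₗ[R] P,
      ∀ n, h' (bcMk₂ (𝒞.chartHom φ) Q 1 n) = h n := by
  letI : Module (S ⊗[k] 𝒞.A₂) Q.N₂ := Q.mod₂
  haveI : IsScalarTower S (S ⊗[k] 𝒞.A₂) Q.N₂ := Q.tower₂
  exact exists_rlift_single 𝒞.A₂ φ Q.N₂ P h hh

theorem exists_rlift₁₂_concrete (P : Type u) [AddCommGroup P] [Module R P] (h : Q.N₁₂ →+ P)
    (hh : ∀ (c : S) (n : Q.N₁₂), h (c • n) = φ c • h n) :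
    ∃ h' : (Q.baseChange (𝒞.chartHom φ)).N₁₂ →ₗ[R] P,
      ∀ n, h' (bcMk₁₂ (𝒞.chartHom φ) Q 1 n) = h n := by
  letI : Module (S ⊗[k] 𝒞.A₁₂) Q.N₁₂ := Q.mod₁₂
  haveI : IsScalarTower S (S ⊗[k] 𝒞.A₁₂) Q.N₁₂ := Q.tower₁₂
  exact exists_rlift_single 𝒞.A₁₂ φ Q.N₁₂ P h hh

theorem rlin_ext₁_concrete {P : Type u} [AddCommGroup P] [Module R P]
    {F G : (Q.baseChange (𝒞.chartHom φ)).N₁ →ₗ[R] P}
    (h : ∀ n, F (bcMk₁ (𝒞.chartHom φ) Q 1 n) = G (bcMk₁ (𝒞.chartHom φ) Q 1 n)) : F = G := by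
  letI : Module (S ⊗[k] 𝒞.A₁) Q.N₁ := Q.mod₁
  exact rlin_ext_single 𝒞.A₁ φ Q.N₁ P F G h

theorem rlin_ext₂_concrete {P : Type u} [AddCommGroup P] [Module R P]
    {F G : (Q.baseChange (𝒞.chartHom φ)).N₂ →ₗ[R] P}
    (h : ∀ n, F (bcMk₂ (𝒞.chartHom φ) Q 1 n) = G (bcMk₂ (𝒞.chartHom φ) Q 1 n)) : F = G := by
  letI : Module (S ⊗[k] 𝒞.A₂) Q.N₂ := Q.mod₂
  exact rlin_ext_single 𝒞.A₂ φ Q.N₂ P F G h

theorem rlin_ext₁₂_concrete {P : Type u} [AddCommGroup P] [Module R P]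
    {F G : (Q.baseChange (𝒞.chartHom φ)).N₁₂ →ₗ[R] P}
    (h : ∀ n, F (bcMk₁₂ (𝒞.chartHom φ) Q 1 n) = G (bcMk₁₂ (𝒞.chartHom φ) Q 1 n)) : F = G := by
  letI : Module (S ⊗[k] 𝒞.A₁₂) Q.N₁₂ := Q.mod₁₂
  exact rlin_ext_single 𝒞.A₁₂ φ Q.N₁₂ P F G h

variable {𝒞 φ Q}
variable {M : GluedModule (𝒞.chart R)} (D : BaseChangeData (𝒞.chartHom φ) Q M)

/-- `R`-linear universal property of the first chart of a base change along `𝒞.chartHom φ`. -/
theorem exists_rlift₁ (P : Type u) [AddCommGroup P] [Module R P] (h : Q.N₁ →+ P)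
    (hh : ∀ (c : S) (n : Q.N₁), h (c • n) = φ c • h n) :
    ∃ h' : M.N₁ →ₗ[R] P, ∀ n, h' (D.j₁ n) = h n := by
  obtain ⟨h₀, hh₀⟩ := exists_rlift₁_concrete 𝒞 φ Q P h hh
  refine ⟨h₀.comp (D.iso.e₁.symm.restrictScalars R).toLinearMap, fun n => ?_⟩
  have key : D.iso.e₁.symm (D.j₁ n) = bcMk₁ (𝒞.chartHom φ) Q 1 n := by
    rw [LinearEquiv.symm_apply_eq, ← j₁_eq_iso]
  change h₀ (D.iso.e₁.symm (D.j₁ n)) = h n
  rw [key, hh₀]

/-- `R`-linear universal property of the second chart of a base change along `𝒞.chartHom φ`. -/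
theorem exists_rlift₂ (P : Type u) [AddCommGroup P] [Module R P] (h : Q.N₂ →+ P)
    (hh : ∀ (c : S) (n : Q.N₂), h (c • n) = φ c • h n) :
    ∃ h' : M.N₂ →ₗ[R] P, ∀ n, h' (D.j₂ n) = h n := by
  obtain ⟨h₀, hh₀⟩ := exists_rlift₂_concrete 𝒞 φ Q P h hh
  refine ⟨h₀.comp (D.iso.e₂.symm.restrictScalars R).toLinearMap, fun n => ?_⟩
  have key : D.iso.e₂.symm (D.j₂ n) = bcMk₂ (𝒞.chartHom φ) Q 1 n := by
    rw [LinearEquiv.symm_apply_eq, ← j₂_eq_iso]
  change h₀ (D.iso.e₂.symm (D.j₂ n)) = h n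
  rw [key, hh₀]

/-- `R`-linear universal property of the overlap of a base change along `𝒞.chartHom φ`. -/
theorem exists_rlift₁₂ (P : Type u) [AddCommGroup P] [Module R P] (h : Q.N₁₂ →+ P)
    (hh : ∀ (c : S) (n : Q.N₁₂), h (c • n) = φ c • h n) :
    ∃ h' : M.N₁₂ →ₗ[R] P, ∀ n, h' (D.j₁₂ n) = h n := by
  obtain ⟨h₀, hh₀⟩ := exists_rlift₁₂_concrete 𝒞 φ Q P h hh
  refine ⟨h₀.comp (D.iso.e₁₂.symm.restrictScalars R).toLinearMap, fun n => ?_⟩
  have key : D.iso.e₁₂.symm (D.j₁₂ n) = bcMk₁₂ (𝒞.chartHom φ) Q 1 n := by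
    rw [LinearEquiv.symm_apply_eq, ← j₁₂_eq_iso]
  change h₀ (D.iso.e₁₂.symm (D.j₁₂ n)) = h n
  rw [key, hh₀]

/-- `R`-linear maps out of the first chart of a base change are determined on `j₁`. -/
theorem rlin_ext₁ {P : Type u} [AddCommGroup P] [Module R P] {F G : M.N₁ →ₗ[R] P}
    (h : ∀ n, F (D.j₁ n) = G (D.j₁ n)) : F = G := by
  have key : F.comp (D.iso.e₁.restrictScalars R).toLinearMap =
      G.comp (D.iso.e₁.restrictScalars R).toLinearMap :=
    rlin_ext₁_concrete 𝒞 φ Q fun n => by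
      change F (D.iso.e₁ (bcMk₁ (𝒞.chartHom φ) Q 1 n)) =
        G (D.iso.e₁ (bcMk₁ (𝒞.chartHom φ) Q 1 n))
      rw [← j₁_eq_iso D n]
      exact h n
  ext m
  obtain ⟨x, rfl⟩ := D.iso.e₁.surjective m
  exact congrArg (fun L => L x) key

/-- `R`-linear maps out of the second chart of a base change are determined on `j₂`. -/
theorem rlin_ext₂ {P : Type u} [AddCommGroup P] [Module R P] {F G : M.N₂ →ₗ[R] P}
    (h : ∀ n, F (D.j₂ n) = G (D.j₂ n)) : F = G := by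
  have key : F.comp (D.iso.e₂.restrictScalars R).toLinearMap =
      G.comp (D.iso.e₂.restrictScalars R).toLinearMap :=
    rlin_ext₂_concrete 𝒞 φ Q fun n => by
      change F (D.iso.e₂ (bcMk₂ (𝒞.chartHom φ) Q 1 n)) =
        G (D.iso.e₂ (bcMk₂ (𝒞.chartHom φ) Q 1 n))
      rw [← j₂_eq_iso D n]
      exact h n
  ext m
  obtain ⟨x, rfl⟩ := D.iso.e₂.surjective m
  exact congrArg (fun L => L x) key

/-- `R`-linear maps out of the overlap of a base change are determined on `j₁₂`. -/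
theorem rlin_ext₁₂ {P : Type u} [AddCommGroup P] [Module R P] {F G : M.N₁₂ →ₗ[R] P}
    (h : ∀ n, F (D.j₁₂ n) = G (D.j₁₂ n)) : F = G := by
  have key : F.comp (D.iso.e₁₂.restrictScalars R).toLinearMap =
      G.comp (D.iso.e₁₂.restrictScalars R).toLinearMap :=
    rlin_ext₁₂_concrete 𝒞 φ Q fun n => by
      change F (D.iso.e₁₂ (bcMk₁₂ (𝒞.chartHom φ) Q 1 n)) =
        G (D.iso.e₁₂ (bcMk₁₂ (𝒞.chartHom φ) Q 1 n))
      rw [← j₁₂_eq_iso D n]
      exact h n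
  ext m
  obtain ⟨x, rfl⟩ := D.iso.e₁₂.surjective m
  exact congrArg (fun L => L x) key

end glued

end Fermat.Agent.S25.ATLAS.DIV.BCfwd
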