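/-
S25 / ATLAS / DIV leaf BCfwd (helper7651): canonical sections and their transport under
base change.

`IsCanSec M t` : `H¹(M) = 0` and `H⁰(M)` is free of rank one on `t`, with an `R`-linear
coordinate `l : M₁ × M₂ → R` (`l t = 1`, `x = l x • t` on `H⁰`).

Main result, for `D : BaseChangeData (𝒞.chartHom φ) Q M`, `Q.N₁₂` projective over the base:
* `IsCanSec.of_baseChangeData` : `IsCanSec Q s → IsCanSec M (j₁ s₁, j₂ s₂)`
  (`H¹ = 0` ⇒ `H⁰` commutes with EVERY base change; no flatness of `φ`).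
-/
import Fermat.Agent.S25.ATLAS.DIV.BCfwd.RLin

set_option autoImplicit false
set_option linter.style.haveILetI false

universe u

namespace Fermat.Agent.S25.ATLAS.DIV.BCfwd

open scoped TensorProduct

open Fermat.Agent.S25 GluedModule

/-- A projective module over an algebra which is free over the base is projective over the
base. -/
theorem projective_of_tower (S B N : Type*) [CommRing S] [CommRing B] [Algebra S B]
    [AddCommGroup N] [Module S N] [Module B N] [IsScalarTower S B N] [Module.Free S B]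
    [Module.Projective B N] : Module.Projective S N := by
  obtain ⟨s, hs⟩ := Module.projective_def'.mp (inferInstance : Module.Projective B N)
  exact Module.Projective.of_split (s.restrictScalars S)
    ((Finsupp.linearCombination B id).restrictScalars S)
    (by ext x; exact congrArg (fun L => L x) hs)

/-- `t` is a canonical section of `M`: `H¹(M) = 0` and `H⁰(M) = R t` is free of rank one,
with an `R`-linear coordinate function defined on `M₁ × M₂`. -/
structure IsCanSec {R : Type u} [CommRing R] {𝔹 : TwoChart R} (M : GluedModule 𝔹)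
    (t : M.N₁ × M.N₂) : Prop where
  mem : t ∈ M.H0
  basis : ∃ l : (M.N₁ × M.N₂) →ₗ[R] R, l t = 1 ∧ ∀ x ∈ M.H0, x = l x • t
  surj : Function.Surjective M.d

/-- The overlap module of a glued module with invertible first chart module is invertible
(localisation of an invertible module). -/
theorem invertible_N₁₂ {R : Type u} [CommRing R] {𝔹 : TwoChart R} (N : GluedModule 𝔹)
    (h : Module.Invertible 𝔹.B₁ N.N₁) : Module.Invertible 𝔹.B₁₂ N.N₁₂ := by
  letI := 𝔹.algebra₁
  letI := N.module₁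
  haveI := N.isScalarTower₁
  haveI := 𝔹.isLocalization₁
  haveI := N.isLocalizedModule₁
  exact Module.Invertible.of_isLocalization (Submonoid.powers 𝔹.f) N.ι₁ₗ

/-! ### Base change of canonical sections along `𝒞.chartHom φ` -/

section transport

variable {k : Type u} [Field k] {𝒞 : CurveData k} {S R : Type u} [CommRing S] [Algebra k S]
  [CommRing R] [Algebra k R] {φ : S →ₐ[k] R} {Q : GluedModule (𝒞.chart S)}
  {M : GluedModule (𝒞.chart R)}

/-- The overlap module of a line bundle over `𝒞.chart S` is projective over `S`. -/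
theorem projective_N₁₂ (hQ : Q.IsLineBundle) : Module.Projective S Q.N₁₂ := by
  haveI := invertible_N₁₂ Q hQ.inv₁
  haveI : Module.Free S (𝒞.chart S).B₁₂ :=
    inferInstanceAs (Module.Free S (S ⊗[k] 𝒞.A₁₂))
  exact projective_of_tower S (𝒞.chart S).B₁₂ Q.N₁₂

/-- **`H⁰` commutes with base change when `H¹ = 0`** (canonical-section form):
a canonical section of `Q` base-changes to a canonical section of any base change of `Q`. -/
theorem IsCanSec.of_baseChangeData (hproj : Module.Projective S Q.N₁₂) {s : Q.N₁ × Q.N₂}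
    (hs : IsCanSec Q s) (D : BaseChangeData (𝒞.chartHom φ) Q M) :
    IsCanSec M (D.j₁ s.1, D.j₂ s.2) := by
  obtain ⟨l, hl1, hlgen⟩ := hs.basis
  obtain ⟨σ, hσ⟩ := Module.projective_lifting_property Q.d
    (LinearMap.id : Q.N₁₂ →ₗ[S] Q.N₁₂) hs.surj
  have hσd : ∀ y, Q.d (σ y) = y := fun y => congrArg (fun L => L y) hσ
  set μ : Q.N₁ × Q.N₂ →ₗ[S] S := l.comp (LinearMap.id - σ.comp Q.d) with hμ
  have hμ_apply : ∀ x, μ x = l (x - σ (Q.d x)) := fun x => rfl
  have key : ∀ x : Q.N₁ × Q.N₂, x = σ (Q.d x) + μ x • s := by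
    intro x
    have hx : x - σ (Q.d x) ∈ Q.H0 := by
      change Q.d (x - σ (Q.d x)) = 0
      rw [map_sub, hσd, sub_self]
    have h2 := hlgen _ hx
    rw [hμ_apply, ← h2]
    abel
  -- the semilinear map `J = j₁ × j₂`
  let J : Q.N₁ × Q.N₂ → M.N₁ × M.N₂ := fun x => (D.j₁ x.1, D.j₂ x.2)
  have hJadd : ∀ x y, J (x + y) = J x + J y := fun x y => by
    change (D.j₁ (x.1 + y.1), D.j₂ (x.2 + y.2)) = (D.j₁ x.1 + D.j₁ y.1, D.j₂ x.2 + D.j₂ y.2)
    rw [map_add, map_add]
  have hJsmul : ∀ (c : S) x, J (c • x) = φ c • J x := fun c x => by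
    change (D.j₁ (c • x.1), D.j₂ (c • x.2)) = (φ c • D.j₁ x.1, φ c • D.j₂ x.2)
    rw [j₁_smulR, j₂_smulR]
    rfl
  have hdJ : ∀ x : Q.N₁ × Q.N₂, M.d (J x) = D.j₁₂ (Q.d x) := by
    intro x
    rw [d_apply, d_apply, map_sub, D.comm₁, D.comm₂]
  -- the `R`-linear extensions
  obtain ⟨σ', hσ'⟩ := exists_rlift₁₂ D (M.N₁ × M.N₂)
    ({ toFun := fun y => J (σ y)
       map_zero' := by
        change (D.j₁ (σ 0).1, D.j₂ (σ 0).2) = 0
        rw [map_zero]
        change (D.j₁ 0, D.j₂ 0) = 0
        rw [map_zero, map_zero]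
        rfl
       map_add' := fun y y' => by rw [map_add, hJadd] } : Q.N₁₂ →+ M.N₁ × M.N₂)
    (fun c y => by
      change J (σ (c • y)) = φ c • J (σ y)
      rw [map_smul, hJsmul])
  have hσ'j : ∀ y, σ' (D.j₁₂ y) = J (σ y) := hσ'
  obtain ⟨μ₁, hμ₁⟩ := exists_rlift₁ D R
    ({ toFun := fun q => φ (μ (q, 0))
       map_zero' := by
        have : ((0 : Q.N₁), (0 : Q.N₂)) = 0 := rfl
        rw [this, map_zero, map_zero]
       map_add' := fun q q' => by
        have : ((q + q' : Q.N₁), (0 : Q.N₂)) = (q, 0) + (q', 0) := by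
          rw [Prod.mk_add_mk, add_zero]
        rw [this, map_add, map_add] } : Q.N₁ →+ R)
    (fun c q => by
      change φ (μ (c • q, 0)) = φ c • φ (μ (q, 0))
      have : ((c • q : Q.N₁), (0 : Q.N₂)) = c • ((q, 0) : Q.N₁ × Q.N₂) := by
        rw [Prod.smul_mk, smul_zero]
      rw [this, map_smul, smul_eq_mul, map_mul, smul_eq_mul])
  have hμ₁j : ∀ q, μ₁ (D.j₁ q) = φ (μ (q, 0)) := hμ₁
  obtain ⟨μ₂, hμ₂⟩ := exists_rlift₂ D R
    ({ toFun := fun q => φ (μ (0, q))
       map_zero' := by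
        have : ((0 : Q.N₁), (0 : Q.N₂)) = 0 := rfl
        rw [this, map_zero, map_zero]
       map_add' := fun q q' => by
        have : ((0 : Q.N₁), (q + q' : Q.N₂)) = (0, q) + (0, q') := by
          rw [Prod.mk_add_mk, add_zero]
        rw [this, map_add, map_add] } : Q.N₂ →+ R)
    (fun c q => by
      change φ (μ (0, c • q)) = φ c • φ (μ (0, q))
      have : ((0 : Q.N₁), (c • q : Q.N₂)) = c • ((0, q) : Q.N₁ × Q.N₂) := by
        rw [Prod.smul_mk, smul_zero]
      rw [this, map_smul, smul_eq_mul, map_mul, smul_eq_mul])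
  have hμ₂j : ∀ q, μ₂ (D.j₂ q) = φ (μ (0, q)) := hμ₂
  set μ' : M.N₁ × M.N₂ →ₗ[R] R := μ₁.coprod μ₂ with hμ'
  have hμ'J : ∀ x, μ' (J x) = φ (μ x) := by
    intro x
    change μ₁ (D.j₁ x.1) + μ₂ (D.j₂ x.2) = φ (μ x)
    rw [hμ₁j, hμ₂j, ← map_add, ← map_add, Prod.mk_add_mk, add_zero, zero_add]
  -- the identity on generators
  have keyJ : ∀ x : Q.N₁ × Q.N₂, J x = σ' (M.d (J x)) + μ' (J x) • J s := by
    intro x
    rw [hdJ, hσ'j, hμ'J, ← hJsmul, ← hJadd, ← key x]
  have hlin : (LinearMap.id : M.N₁ × M.N₂ →ₗ[R] M.N₁ × M.N₂) =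
      σ'.comp M.d + μ'.smulRight (J s) := by
    apply LinearMap.prod_ext
    · apply rlin_ext₁ D
      intro q
      have h0 : ((D.j₁ q, 0) : M.N₁ × M.N₂) = J (q, 0) := by
        change (D.j₁ q, (0 : M.N₂)) = (D.j₁ q, D.j₂ 0)
        rw [map_zero]
      have := keyJ (q, 0)
      simp only [LinearMap.comp_apply, LinearMap.inl_apply, LinearMap.id_apply,
        LinearMap.add_apply, LinearMap.smulRight_apply]
      rw [h0]
      exact this
    · apply rlin_ext₂ D
      intro q
      have h0 : ((0, D.j₂ q) : M.N₁ × M.N₂) = J (0, q) := by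
        change ((0 : M.N₁), D.j₂ q) = (D.j₁ 0, D.j₂ q)
        rw [map_zero]
      have := keyJ (0, q)
      simp only [LinearMap.comp_apply, LinearMap.inr_apply, LinearMap.id_apply,
        LinearMap.add_apply, LinearMap.smulRight_apply]
      rw [h0]
      exact this
  have key' : ∀ x' : M.N₁ × M.N₂, x' = σ' (M.d x') + μ' x' • J s := fun x' =>
    congrArg (fun L => L x') hlin
  have hsJ : J s ∈ M.H0 := by
    change M.d (J s) = 0
    rw [hdJ]
    have : Q.d s = 0 := hs.mem
    rw [this, map_zero]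
  refine ⟨hsJ, ⟨μ', ?_, ?_⟩, ?_⟩
  · rw [hμ'J, hμ_apply]
    have : Q.d s = 0 := hs.mem
    rw [this, map_zero, sub_zero, hl1, map_one]
  · intro x hx
    have hx0 : M.d x = 0 := hx
    have := key' x
    rwa [hx0, map_zero, zero_add] at this
  · have h1 : M.d.comp σ' = LinearMap.id := rlin_ext₁₂ D (fun y => by
      change M.d (σ' (D.j₁₂ y)) = D.j₁₂ y
      rw [hσ'j, hdJ, hσd])
    intro y
    exact ⟨σ' y, congrArg (fun L => L y) h1⟩

end transport

end Fermat.Agent.S25.ATLAS.DIV.BCfwd
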