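/-
S25 / ATLAS / DIV leaf BCfwd (helper7651): the conditions `IsCan` (C1 + C2) are stable under
base change of line bundles.

* `isCanSec_of_isCan`  : `IsCan` ⇒ `IsCanSec` (linear coordinate on `M₁ × M₂`, from a splitting of
  the surjection `d : M₁ × M₂ → M₁₂` onto the base-projective module `M₁₂`);
* `isCan_of_isCanSec`  : the converse, given `eps` and `away`;
* `eps_of_baseChangeData`, `away_of_baseChangeData` : the two generation conditions base-change;
* `isCan_of_baseChangeData` : `IsCan 𝒞 Q σ` ⇒ `IsCan 𝒞 M (j₁ σ₁, j₂ σ₂)` for a base change `M` of a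
  line bundle `Q`.
-/
import Fermat.Agent.S25.ATLAS.DIV.Defs
import Fermat.Agent.S25.Lib.Chart.Facts3648
import Fermat.Agent.S25.ATLAS.DIV.BCfwd.Transport

set_option autoImplicit false
set_option linter.style.haveILetI false

universe u

namespace Fermat.Agent.S25.ATLAS.DIV.BCfwd

open scoped TensorProduct

open Fermat.Agent.S25 GluedModule Fermat.Agent.S25.ATLAS

variable {k : Type u} [Field k] {𝒞 : CurveData k}

section single

variable {R : Type u} [CommRing R] [Algebra k R] {M : GluedModule (𝒞.chart R)}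
  {s : M.N₁ × M.N₂}

theorem d_surjective_of_h1 {R : Type u} [CommRing R] {𝔹 : TwoChart R} {M : GluedModule 𝔹}
    (h : Subsingleton M.H1) : Function.Surjective M.d := by
  rw [← LinearMap.range_eq_top]
  exact Submodule.Quotient.subsingleton_iff.mp h

theorem h1_of_d_surjective {R : Type u} [CommRing R] {𝔹 : TwoChart R} {M : GluedModule 𝔹}
    (h : Function.Surjective M.d) : Subsingleton M.H1 :=
  Submodule.Quotient.subsingleton_iff.mpr (LinearMap.range_eq_top.mpr h)

/-- A canonical pair has a linear coordinate function on `M₁ × M₂`. -/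
theorem isCanSec_of_isCan (hproj : Module.Projective R M.N₁₂) (hs : IsCan 𝒞 M s) :
    IsCanSec M s := by
  have hsurj : Function.Surjective M.d := d_surjective_of_h1 hs.h1
  obtain ⟨τ, hτ⟩ := Module.projective_lifting_property M.d
    (LinearMap.id : M.N₁₂ →ₗ[R] M.N₁₂) hsurj
  have hτd : ∀ y, M.d (τ y) = y := fun y => congrArg (fun L => L y) hτ
  have hinj : ∀ r r' : R, r • s = r' • s → r = r' := by
    intro r r' h
    obtain ⟨r₀, -, huniq⟩ := hs.gen (r • s) (M.H0.smul_mem r hs.mem)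
    rw [huniq r rfl, huniq r' h]
  choose c hc using fun x : M.H0 => (hs.gen x.1 x.2).exists
  let cl : M.H0 →ₗ[R] R :=
    { toFun := c
      map_add' := fun x y => hinj _ _ (by
        rw [add_smul, ← hc, ← hc, ← hc]
        rfl)
      map_smul' := fun r x => hinj _ _ (by
        rw [RingHom.id_apply, smul_eq_mul, mul_smul, ← hc, ← hc]
        rfl) }
  let pr : (M.N₁ × M.N₂) →ₗ[R] M.H0 :=
    (LinearMap.id - τ.comp M.d).codRestrict M.H0 (fun x => by
      change M.d (x - τ (M.d x)) = 0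
      rw [map_sub, hτd, sub_self])
  have hpr : ∀ x : M.N₁ × M.N₂, M.d x = 0 → ((pr x : M.H0) : M.N₁ × M.N₂) = x := by
    intro x h0
    change x - τ (M.d x) = x
    rw [h0, map_zero, sub_zero]
  refine ⟨hs.mem, ⟨cl.comp pr, ?_, ?_⟩, hsurj⟩
  · apply hinj
    rw [one_smul]
    change c (pr s) • s = s
    rw [← hc, hpr s hs.mem]
  · intro x hx
    change x = c (pr x) • s
    rw [← hc, hpr x hx]

/-- Back from a canonical section with coordinate to the frozen predicate. -/
theorem isCan_of_isCanSec (hs : IsCanSec M s)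
    (heps : Submodule.span (𝒞.chart R).B₁ {s.1} ⊔
      (RingHom.ker (𝒞.epsR R : (𝒞.chart R).B₁ →+* R)) •
        (⊤ : Submodule (𝒞.chart R).B₁ M.N₁) = ⊤)
    (haway : Submodule.span (𝒞.chart R).B₂ {s.2} ⊔
      (Ideal.span {(𝒞.chart R).g}) • (⊤ : Submodule (𝒞.chart R).B₂ M.N₂) = ⊤) :
    IsCan 𝒞 M s where
  mem := hs.mem
  h1 := h1_of_d_surjective hs.surj
  gen := fun t ht => by
    obtain ⟨l, hl1, hl⟩ := hs.basis
    refine ⟨l t, hl t ht, fun r hr => ?_⟩
    rw [hr, map_smul, hl1, smul_eq_mul, mul_one]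
  eps := heps
  away := haway

end single

section bc

variable {S R : Type u} [CommRing S] [Algebra k S] [CommRing R] [Algebra k R] {φ : S →ₐ[k] R}
  {Q : GluedModule (𝒞.chart S)} {M : GluedModule (𝒞.chart R)}

/-- The condition `eps` (the section generates the `ε`-fibre) is stable under base change. -/
theorem eps_of_baseChangeData (D : BaseChangeData (𝒞.chartHom φ) Q M) {σ : Q.N₁ × Q.N₂}
    (h : Submodule.span (𝒞.chart S).B₁ {σ.1} ⊔
      (RingHom.ker (𝒞.epsR S : (𝒞.chart S).B₁ →+* S)) •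
        (⊤ : Submodule (𝒞.chart S).B₁ Q.N₁) = ⊤) :
    Submodule.span (𝒞.chart R).B₁ {D.j₁ σ.1} ⊔
      (RingHom.ker (𝒞.epsR R : (𝒞.chart R).B₁ →+* R)) •
        (⊤ : Submodule (𝒞.chart R).B₁ M.N₁) = ⊤ := by
  have hle : Submodule.span (𝒞.chart R).B₁ (Set.range D.j₁) ≤
      Submodule.span (𝒞.chart R).B₁ {D.j₁ σ.1} ⊔
        (RingHom.ker (𝒞.epsR R : (𝒞.chart R).B₁ →+* R)) •
          (⊤ : Submodule (𝒞.chart R).B₁ M.N₁) := by
    rw [Submodule.span_le]
    rintro _ ⟨q, rfl⟩
    have hq : q ∈ Submodule.span (𝒞.chart S).B₁ {σ.1} ⊔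
        (RingHom.ker (𝒞.epsR S : (𝒞.chart S).B₁ →+* S)) •
          (⊤ : Submodule (𝒞.chart S).B₁ Q.N₁) := by
      rw [h]
      exact Submodule.mem_top
    obtain ⟨x, hx, y, hy, rfl⟩ := Submodule.mem_sup.mp hq
    rw [SetLike.mem_coe, map_add]
    refine Submodule.add_mem _ (Submodule.mem_sup_left ?_) (Submodule.mem_sup_right ?_)
    · obtain ⟨b, rfl⟩ := Submodule.mem_span_singleton.mp hx
      rw [D.j₁_smul]
      exact Submodule.smul_mem _ _ (Submodule.mem_span_singleton_self _)
    · refine Submodule.smul_induction_on hy (fun a ha m _ => ?_) (fun x y hx hy => ?_)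
      · rw [D.j₁_smul]
        refine Submodule.smul_mem_smul ?_ Submodule.mem_top
        rw [RingHom.mem_ker] at ha ⊢
        have h1 := Lib.Chart.epsR_chartHom 𝒞 φ a
        have ha' : 𝒞.epsR S a = 0 := ha
        rw [ha', map_zero] at h1
        exact h1
      · rw [map_add]
        exact Submodule.add_mem _ hx hy
  rw [span_range_j₁ D] at hle
  exact eq_top_iff.mpr hle

/-- The condition `away` (the section generates `M₂` modulo `g`) is stable under base
change. -/
theorem away_of_baseChangeData (D : BaseChangeData (𝒞.chartHom φ) Q M) {σ : Q.N₁ × Q.N₂}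
    (h : Submodule.span (𝒞.chart S).B₂ {σ.2} ⊔
      (Ideal.span {(𝒞.chart S).g}) • (⊤ : Submodule (𝒞.chart S).B₂ Q.N₂) = ⊤) :
    Submodule.span (𝒞.chart R).B₂ {D.j₂ σ.2} ⊔
      (Ideal.span {(𝒞.chart R).g}) • (⊤ : Submodule (𝒞.chart R).B₂ M.N₂) = ⊤ := by
  have hle : Submodule.span (𝒞.chart R).B₂ (Set.range D.j₂) ≤
      Submodule.span (𝒞.chart R).B₂ {D.j₂ σ.2} ⊔
        (Ideal.span {(𝒞.chart R).g}) • (⊤ : Submodule (𝒞.chart R).B₂ M.N₂) := by
    rw [Submodule.span_le]
    rintro _ ⟨q, rfl⟩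
    have hq : q ∈ Submodule.span (𝒞.chart S).B₂ {σ.2} ⊔
        (Ideal.span {(𝒞.chart S).g}) • (⊤ : Submodule (𝒞.chart S).B₂ Q.N₂) := by
      rw [h]
      exact Submodule.mem_top
    obtain ⟨x, hx, y, hy, rfl⟩ := Submodule.mem_sup.mp hq
    rw [SetLike.mem_coe, map_add]
    refine Submodule.add_mem _ (Submodule.mem_sup_left ?_) (Submodule.mem_sup_right ?_)
    · obtain ⟨b, rfl⟩ := Submodule.mem_span_singleton.mp hx
      rw [D.j₂_smul]
      exact Submodule.smul_mem _ _ (Submodule.mem_span_singleton_self _)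
    · refine Submodule.smul_induction_on hy (fun a ha m _ => ?_) (fun x y hx hy => ?_)
      · rw [D.j₂_smul]
        refine Submodule.smul_mem_smul ?_ Submodule.mem_top
        obtain ⟨c, rfl⟩ := Ideal.mem_span_singleton'.mp ha
        rw [map_mul, (𝒞.chartHom φ).map_g]
        exact Ideal.mul_mem_left _ _ (Ideal.mem_span_singleton_self _)
      · rw [map_add]
        exact Submodule.add_mem _ hx hy
  rw [span_range_j₂ D] at hle
  exact eq_top_iff.mpr hle

/-- **C1 + C2 are stable under base change** of line bundles. -/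
theorem isCan_of_baseChangeData (hQ : Q.IsLineBundle) {σ : Q.N₁ × Q.N₂} (hσ : IsCan 𝒞 Q σ)
    (D : BaseChangeData (𝒞.chartHom φ) Q M) : IsCan 𝒞 M (D.j₁ σ.1, D.j₂ σ.2) := by
  have hproj : Module.Projective S Q.N₁₂ := projective_N₁₂ hQ
  exact isCan_of_isCanSec ((isCanSec_of_isCan hproj hσ).of_baseChangeData hproj D)
    (eps_of_baseChangeData D hσ.eps) (away_of_baseChangeData D hσ.away)

end bc

end Fermat.Agent.S25.ATLAS.DIV.BCfwd
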